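import Mathlib

set_option autoImplicit false

namespace Fermat.Agent.S57

open RingTheory.Sequence

section PowerSeriesStep

variable {B : Type*} [CommRing B]

/-- `X` is a regular element on `B⟦X⟧`. -/
theorem isSMulRegular_powerSeries_X : IsSMulRegular (PowerSeries B) (PowerSeries.X : PowerSeries B) := by
  intro f g h
  exact PowerSeries.X_mul_cancel h

/-- The additive map `B → B⟦X⟧ / X B⟦X⟧`. -/
noncomputable def quotXHom : B →+ QuotSMulTop (PowerSeries.X : PowerSeries B) (PowerSeries B) :=
  (Submodule.mkQ _).toAddMonoidHom.comp (PowerSeries.C : B →+* PowerSeries B).toAddMonoidHom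

theorem quotXHom_apply (b : B) :
    quotXHom b = Submodule.Quotient.mk (PowerSeries.C b) := rfl

theorem quotXHom_bijective : Function.Bijective (quotXHom (B := B)) := by
  constructor
  · rw [injective_iff_map_eq_zero]
    intro b hb
    rw [quotXHom_apply, Submodule.Quotient.mk_eq_zero] at hb
    obtain ⟨g, -, hg⟩ := (Submodule.mem_smul_pointwise_iff_exists _ _ _).mp hb
    have := congrArg PowerSeries.constantCoeff hg
    simpa using this.symm
  · intro q
    obtain ⟨F, rfl⟩ := Submodule.Quotient.mk_surjective _ q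
    refine ⟨PowerSeries.constantCoeff F, ?_⟩
    rw [quotXHom_apply, eq_comm, Submodule.Quotient.eq]
    obtain ⟨g, hg⟩ := PowerSeries.X_dvd_iff.mpr
      (show PowerSeries.constantCoeff (F - PowerSeries.C (PowerSeries.constantCoeff F)) = 0 by simp)
    rw [hg]
    exact (Submodule.mem_smul_pointwise_iff_exists _ _ _).mpr ⟨g, trivial, rfl⟩

/-- The additive equivalence `B ≃+ B⟦X⟧ / X B⟦X⟧`. -/
noncomputable def quotXEquiv : B ≃+ QuotSMulTop (PowerSeries.X : PowerSeries B) (PowerSeries B) :=
  AddEquiv.ofBijective quotXHom quotXHom_bijective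

theorem quotXEquiv_smul (a x : B) :
    quotXEquiv (a • x) = (PowerSeries.C a) • quotXEquiv x := by
  change quotXHom (a * x) = PowerSeries.C a • quotXHom x
  rw [quotXHom_apply, quotXHom_apply, map_mul]
  rfl

/-- If `as` is weakly regular on `B` then `X :: as.map C` is weakly regular on `B⟦X⟧`. -/
theorem isWeaklyRegular_powerSeries_cons {as : List B} (h : IsWeaklyRegular B as) :
    IsWeaklyRegular (PowerSeries B) (PowerSeries.X :: as.map PowerSeries.C) := by
  rw [isWeaklyRegular_cons_iff]
  refine ⟨isSMulRegular_powerSeries_X, ?_⟩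
  refine (AddEquiv.isWeaklyRegular_congr (e := quotXEquiv (B := B)) ?_).mp h
  exact List.forall₂_map_right_iff.mpr <| List.forall₂_same.mpr fun a _ x => quotXEquiv_smul a x

end PowerSeriesStep

section MvStep

variable {A : Type*} [CommRing A]

/-- Transport of weak regularity along a ring isomorphism. -/
theorem isWeaklyRegular_of_ringEquiv {P Q : Type*} [CommRing P] [CommRing Q] (e : P ≃+* Q)
    (rs : List P) : IsWeaklyRegular P rs ↔ IsWeaklyRegular Q (rs.map e) := by
  refine AddEquiv.isWeaklyRegular_congr (e := e.toAddEquiv) ?_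
  exact List.forall₂_map_right_iff.mpr <| List.forall₂_same.mpr fun a _ x => map_mul e a x

theorem map_finSuccEquiv_gens (rs₀ : List A) (r : ℕ) :
    List.map (MvPowerSeries.finSuccEquiv A r).toRingEquiv
      ((List.ofFn fun i : Fin (r + 1) => (MvPowerSeries.X i : MvPowerSeries (Fin (r + 1)) A)) ++
        List.map MvPowerSeries.C rs₀) =
    PowerSeries.X :: List.map PowerSeries.C
      ((List.ofFn fun i : Fin r => (MvPowerSeries.X i : MvPowerSeries (Fin r) A)) ++
        List.map MvPowerSeries.C rs₀) := by
  simp [List.ofFn_succ, Function.comp_def]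

theorem isWeaklyRegular_mvPowerSeries (rs₀ : List A) (h : IsWeaklyRegular A rs₀) (r : ℕ) :
    IsWeaklyRegular (MvPowerSeries (Fin r) A)
      (List.ofFn (fun i : Fin r => (MvPowerSeries.X i : MvPowerSeries (Fin r) A)) ++
        rs₀.map MvPowerSeries.C) := by
  induction r with
  | zero =>
    have := (isWeaklyRegular_of_ringEquiv
      (MvPowerSeries.isEmptyEquiv (Fin 0) A).symm.toRingEquiv rs₀).mp h
    have e : (rs₀.map (MvPowerSeries.isEmptyEquiv (Fin 0) A).symm.toRingEquiv) =
        rs₀.map MvPowerSeries.C := List.map_congr_left fun a _ => by simp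
    rw [e] at this
    simpa using this
  | succ r ih =>
    rw [isWeaklyRegular_of_ringEquiv (MvPowerSeries.finSuccEquiv A r).toRingEquiv,
      map_finSuccEquiv_gens]
    exact isWeaklyRegular_powerSeries_cons ih

end MvStep


section MaxIdeal

variable {A : Type*} [CommRing A]

theorem constantCoeff_constantCoeff_finSuccEquiv (r : ℕ) (f : MvPowerSeries (Fin (r + 1)) A) :
    MvPowerSeries.constantCoeff (PowerSeries.constantCoeff (MvPowerSeries.finSuccEquiv A r f)) =
      MvPowerSeries.constantCoeff f := by
  have := MvPowerSeries.coeff_coeff_finSuccEquiv (R := A) f (k := 0) (x := 0)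
  rw [Finsupp.cons_zero_zero] at this
  simpa using this

/-- A power series in finitely many variables with zero constant coefficient lies in the ideal
generated by the variables. -/
theorem mem_span_range_X_of_constantCoeff_eq_zero (r : ℕ) (f : MvPowerSeries (Fin r) A)
    (hf : MvPowerSeries.constantCoeff f = 0) :
    f ∈ Ideal.span (Set.range (MvPowerSeries.X : Fin r → MvPowerSeries (Fin r) A)) := by
  induction r with
  | zero =>
    have h1 := (MvPowerSeries.isEmptyEquiv (Fin 0) A).symm_apply_apply f
    have h2 : (MvPowerSeries.isEmptyEquiv (Fin 0) A) f = 0 := by simpa using hf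
    rw [h2, map_zero] at h1
    rw [← h1]
    exact zero_mem _
  | succ r ih =>
    set e := MvPowerSeries.finSuccEquiv A r with he
    set F := e f with hF
    have hF₀ : MvPowerSeries.constantCoeff (PowerSeries.constantCoeff F) = 0 := by
      rw [hF, he, constantCoeff_constantCoeff_finSuccEquiv, hf]
    have ih' := ih (PowerSeries.constantCoeff F) hF₀
    have hdecomp := PowerSeries.eq_X_mul_shift_add_const F
    have hf' : f = e.symm F := by simp [hF]
    rw [hf', hdecomp, map_add, map_mul]
    refine Ideal.add_mem _ (Ideal.mul_mem_right _ _ ?_) ?_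
    · have : e.symm PowerSeries.X = MvPowerSeries.X 0 := by
        rw [AlgEquiv.symm_apply_eq, he, MvPowerSeries.finSuccEquiv_X_zero]
      rw [this]
      exact Ideal.subset_span ⟨0, rfl⟩
    · let ι : MvPowerSeries (Fin r) A →+* MvPowerSeries (Fin (r + 1)) A :=
        (e.symm : PowerSeries (MvPowerSeries (Fin r) A) →+* MvPowerSeries (Fin (r + 1)) A).comp
          PowerSeries.C
      have hι : ∀ j : Fin r, ι (MvPowerSeries.X j) = MvPowerSeries.X j.succ := by
        intro j
        change e.symm (PowerSeries.C (MvPowerSeries.X j)) = _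
        rw [AlgEquiv.symm_apply_eq, he, MvPowerSeries.finSuccEquiv_X_succ]
      have hle : Ideal.map ι (Ideal.span (Set.range
          (MvPowerSeries.X : Fin r → MvPowerSeries (Fin r) A))) ≤
          Ideal.span (Set.range (MvPowerSeries.X : Fin (r + 1) → MvPowerSeries (Fin (r + 1)) A)) := by
        rw [Ideal.map_span, Ideal.span_le]
        rintro _ ⟨_, ⟨j, rfl⟩, rfl⟩
        rw [hι]
        exact Ideal.subset_span ⟨j.succ, rfl⟩
      exact hle (Ideal.mem_map_of_mem ι ih')

theorem ofList_ofFn_eq_span_range {P : Type*} [Semiring P] {n : ℕ} (g : Fin n → P) :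
    Ideal.ofList (List.ofFn g) = Ideal.span (Set.range g) := by
  have h : {x | x ∈ List.ofFn g} = Set.range g := by
    ext x
    exact List.mem_ofFn
  change Ideal.span {x | x ∈ List.ofFn g} = _
  rw [h]

/-- The ideal generated by the variables and the constants from `rs₀` is the preimage of the
ideal generated by `rs₀` under the constant coefficient map. -/
theorem ofList_mvPowerSeries_gens (rs₀ : List A) (r : ℕ) :
    Ideal.ofList (List.ofFn (fun i : Fin r => (MvPowerSeries.X i : MvPowerSeries (Fin r) A)) ++
        rs₀.map MvPowerSeries.C) =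
      Ideal.comap MvPowerSeries.constantCoeff (Ideal.ofList rs₀) := by
  rw [Ideal.ofList_append, ofList_ofFn_eq_span_range, ← Ideal.map_ofList]
  apply le_antisymm
  · refine sup_le ?_ ?_
    · rw [Ideal.span_le]
      rintro _ ⟨i, rfl⟩
      simp
    · rw [Ideal.map_le_iff_le_comap]
      intro a ha
      simpa using ha
  · intro f hf
    rw [Ideal.mem_comap] at hf
    have h1 : f - MvPowerSeries.C (MvPowerSeries.constantCoeff f) ∈
        Ideal.span (Set.range (MvPowerSeries.X : Fin r → MvPowerSeries (Fin r) A)) :=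
      mem_span_range_X_of_constantCoeff_eq_zero r _ (by simp)
    have h2 : MvPowerSeries.C (MvPowerSeries.constantCoeff f) ∈
        Ideal.map (MvPowerSeries.C (σ := Fin r)) (Ideal.ofList rs₀) := Ideal.mem_map_of_mem _ hf
    have : f = (f - MvPowerSeries.C (MvPowerSeries.constantCoeff f)) +
        MvPowerSeries.C (MvPowerSeries.constantCoeff f) := by ring
    rw [this]
    exact Ideal.add_mem _ (Ideal.mem_sup_left h1) (Ideal.mem_sup_right h2)

theorem maximalIdeal_mvPowerSeries_eq_comap [IsLocalRing A] (r : ℕ) :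
    IsLocalRing.maximalIdeal (MvPowerSeries (Fin r) A) =
      Ideal.comap MvPowerSeries.constantCoeff (IsLocalRing.maximalIdeal A) := by
  ext f
  rw [Ideal.mem_comap, IsLocalRing.mem_maximalIdeal, IsLocalRing.mem_maximalIdeal, mem_nonunits_iff,
    mem_nonunits_iff, MvPowerSeries.isUnit_iff_constantCoeff]

end MaxIdeal

section DVR

variable {𝒪 : Type} [CommRing 𝒪] [IsDomain 𝒪] [IsDiscreteValuationRing 𝒪]

theorem isWeaklyRegular_rs0 (r : ℕ) (ϖ : 𝒪) (hϖ : Irreducible ϖ) :
    RingTheory.Sequence.IsWeaklyRegular (MvPowerSeries (Fin r) 𝒪)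
      (List.ofFn (fun i : Fin r => (MvPowerSeries.X i : MvPowerSeries (Fin r) 𝒪)) ++
        [MvPowerSeries.C ϖ]) := by
  have h0 : IsWeaklyRegular 𝒪 [ϖ] := by
    rw [isWeaklyRegular_singleton_iff]
    intro a b hab
    exact mul_left_cancel₀ hϖ.ne_zero hab
  exact isWeaklyRegular_mvPowerSeries [ϖ] h0 r

theorem ofList_rs0 (r : ℕ) (ϖ : 𝒪) (hϖ : Irreducible ϖ) :
    Ideal.ofList (List.ofFn (fun i : Fin r => (MvPowerSeries.X i : MvPowerSeries (Fin r) 𝒪)) ++
        [MvPowerSeries.C ϖ]) = IsLocalRing.maximalIdeal (MvPowerSeries (Fin r) 𝒪) := by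
  have := ofList_mvPowerSeries_gens [ϖ] r
  rw [List.map_singleton] at this
  rw [this, maximalIdeal_mvPowerSeries_eq_comap, hϖ.maximalIdeal_eq, Ideal.ofList_singleton]

end DVR

end Fermat.Agent.S57
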