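import Mathlib
import Fermat.Prelude.Def_Algebra_PatchingDatum

set_option autoImplicit false

namespace Fermat.Agent.S57

/-- Descent step: if the patched module `L.N` is free over the power series ring, then
`M` is free over `R`, faithful, and the kernel of `ψ` is generated by the `φ (X i)`. -/
theorem descent_of_free {𝒪 : Type} [CommRing 𝒪] {r : ℕ} {R : Type} [CommRing R] [Algebra 𝒪 R]
    {M : Type} [AddCommGroup M] [Module R M] [Nontrivial M]
    {J : Ideal (MvPowerSeries (Fin r) 𝒪)}
    (L : Algebra.PatchingLevel 𝒪 r R M J)
    (hfree : Module.Free (MvPowerSeries (Fin r) 𝒪) L.N) :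
    Module.Free R M ∧ Module.annihilator R M = ⊥ ∧
      RingHom.ker L.ψ = Ideal.span (Set.range fun i : Fin r => L.φ (MvPowerSeries.X i)) := by
  classical
  have hRnt : Nontrivial R := Module.nontrivial R M
  set I : Ideal (MvPowerSeries (Fin r) 𝒪) :=
    Ideal.span (Set.range fun i : Fin r => L.φ (MvPowerSeries.X i)) with hI
  let β := Module.Free.chooseBasis (MvPowerSeries (Fin r) 𝒪) L.N
  -- semilinearity of `π` on linear combinations
  have hπ : ∀ a : Module.Free.ChooseBasisIndex (MvPowerSeries (Fin r) 𝒪) L.N →₀
      MvPowerSeries (Fin r) 𝒪,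
      L.π (Finsupp.linearCombination (MvPowerSeries (Fin r) 𝒪) β a) =
        Finsupp.linearCombination R (fun i => L.π (β i)) (a.mapRange L.ψ (map_zero _)) := by
    intro a
    rw [Finsupp.linearCombination_apply, Finsupp.linearCombination_apply,
      Finsupp.sum_mapRange_index (by intro i; simp), map_finsuppSum]
    refine Finsupp.sum_congr ?_
    intro i _
    rw [L.π_smul]
  -- the key fact
  have key : ∀ a : Module.Free.ChooseBasisIndex (MvPowerSeries (Fin r) 𝒪) L.N →₀
      MvPowerSeries (Fin r) 𝒪,
      L.π (Finsupp.linearCombination (MvPowerSeries (Fin r) 𝒪) β a) = 0 ↔ ∀ i, a i ∈ I := by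
    intro a
    rw [L.ker_π, ← hI, ← β.span_eq, Submodule.mem_ideal_smul_span_iff_exists_sum]
    constructor
    · rintro ⟨a', ha', hsum⟩
      have h2 : a' = a := by
        rw [← Finsupp.linearCombination_apply] at hsum
        have h3 := congrArg β.repr hsum
        rwa [β.repr_linearCombination, β.repr_linearCombination] at h3
      intro i
      rw [← h2]
      exact ha' i
    · intro ha
      exact ⟨a, ha, (Finsupp.linearCombination_apply _ _).symm⟩
  have hIle : I ≤ RingHom.ker L.ψ := by
    refine Ideal.span_le.mpr ?_
    rintro _ ⟨i, rfl⟩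
    exact L.ψ_φ_X i
  -- the index type is nonempty
  have hne : Nonempty (Module.Free.ChooseBasisIndex (MvPowerSeries (Fin r) 𝒪) L.N) := by
    by_contra h
    rw [not_nonempty_iff] at h
    obtain ⟨m, hm⟩ := exists_ne (0 : M)
    obtain ⟨x, rfl⟩ := L.π_surjective m
    apply hm
    have hx : x = 0 := by
      apply β.repr.injective
      ext i
      exact (h.false i).elim
    rw [hx, map_zero]
  have hker : RingHom.ker L.ψ = I := by
    refine le_antisymm ?_ hIle
    intro f hf
    obtain ⟨j⟩ := hne
    have h1 := (key (Finsupp.single j f)).mp (by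
      rw [Finsupp.linearCombination_single, L.π_smul, (RingHom.mem_ker).mp hf, zero_smul])
    simpa using h1 j
  -- linear independence of the images of the basis
  have hli : LinearIndependent R (fun i => L.π (β i)) := by
    rw [linearIndependent_iff]
    intro l hl
    obtain ⟨a, rfl⟩ := Finsupp.mapRange_surjective L.ψ (map_zero _) L.ψ_surjective l
    rw [← hπ, key] at hl
    ext i
    simp only [Finsupp.mapRange_apply, Finsupp.coe_zero, Pi.zero_apply]
    exact hIle (hl i)
  have hsp : ⊤ ≤ Submodule.span R (Set.range fun i => L.π (β i)) := by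
    intro m _
    obtain ⟨x, rfl⟩ := L.π_surjective m
    rw [← β.linearCombination_repr x, hπ]
    rw [Finsupp.mem_span_range_iff_exists_finsupp]
    exact ⟨_, (Finsupp.linearCombination_apply _ _).symm⟩
  have hMfree : Module.Free R M := Module.Free.of_basis (Module.Basis.mk hli hsp)
  exact ⟨hMfree, Module.annihilator_eq_bot.mpr inferInstance, hker⟩

end Fermat.Agent.S57

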