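import Mathlib

set_option autoImplicit false

namespace Fermat.Agent.S57

open CategoryTheory IsLocalRing RingTheory.Sequence

universe u

/-- Over a Noetherian local ring whose maximal ideal is generated by a regular sequence `rs`,
every module of finite length has projective dimension at most `rs.length`. -/
theorem hasProjectiveDimensionLE_of_isFiniteLength
    {B : Type u} [CommRing B] [IsLocalRing B] [IsNoetherianRing B]
    (rs : List B) (hreg : IsRegular B rs) (hmax : Ideal.ofList rs = maximalIdeal B)
    (Q : Type u) [AddCommGroup Q] [Module B Q] (hQ : IsFiniteLength B Q) :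
    HasProjectiveDimensionLE (ModuleCat.of B Q) rs.length := by
  induction hQ with
  | @of_subsingleton M _ _ _ =>
    have hz : Limits.IsZero (ModuleCat.of B M) := ModuleCat.isZero_of_subsingleton _
    have := hz.hasProjectiveDimensionLT_zero
    exact hasProjectiveDimensionLT_of_ge _ 0 _ (Nat.zero_le _)
  | @of_simple_quotient M _ _ N hs h ih =>
    obtain ⟨I, hI, ⟨e⟩⟩ := isSimpleModule_iff_quot_maximal.mp hs
    rw [eq_maximalIdeal hI, ← hmax] at e
    have hk : projectiveDimension (ModuleCat.of B (Shrink.{u} (B ⧸ Ideal.ofList rs))) = rs.length :=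
      ModuleCat.projectiveDimension_quotient_eq_length rs hreg
    have hk' : HasProjectiveDimensionLE (ModuleCat.of B (Shrink.{u} (B ⧸ Ideal.ofList rs)))
        rs.length := by
      rw [← projectiveDimension_le_iff, hk]
    have h3 : HasProjectiveDimensionLE (ModuleCat.of B (M ⧸ N)) rs.length :=
      ModuleCat.hasProjectiveDimensionLE_of_linearEquiv
        (M := ModuleCat.of B (Shrink.{u} (B ⧸ Ideal.ofList rs))) (N := ModuleCat.of B (M ⧸ N))
        ((Shrink.linearEquiv B _).trans e.symm) rs.length
    have hS := LinearMap.shortExact_shortComplexKer (Submodule.mkQ_surjective N)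
    have h1 : HasProjectiveDimensionLE (ModuleCat.of B (LinearMap.ker N.mkQ)) rs.length :=
      ModuleCat.hasProjectiveDimensionLE_of_linearEquiv
        (M := ModuleCat.of B N) (N := ModuleCat.of B (LinearMap.ker N.mkQ))
        (LinearEquiv.ofEq _ _ (Submodule.ker_mkQ N).symm) rs.length
    exact hS.hasProjectiveDimensionLT_X₂ _ h1 h3

/-- A finitely generated nontrivial module `N` over a Noetherian local ring `B` whose maximal
ideal is generated by a regular sequence `rs`, admitting a weakly regular sequence `ys` in the
maximal ideal with `rs.length ≤ ys.length` and `N / ys N` of finite length, is free. -/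
theorem free_of_isWeaklyRegular_of_isFiniteLength
    {B : Type u} [CommRing B] [IsLocalRing B] [IsNoetherianRing B]
    (rs : List B) (hreg : IsRegular B rs) (hmax : Ideal.ofList rs = maximalIdeal B)
    (N : Type u) [AddCommGroup N] [Module B N] [Module.Finite B N] [Nontrivial N]
    (ys : List B) (hys : ∀ y ∈ ys, y ∈ maximalIdeal B) (hN : IsWeaklyRegular N ys)
    (hlen : rs.length ≤ ys.length)
    (hfl : IsFiniteLength B (N ⧸ (Ideal.ofList ys • ⊤ : Submodule B N))) :
    Module.Free B N := by
  have h1 := ModuleCat.projectiveDimension_quotient_eq_add_length_of_isWeaklyRegular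
    (ModuleCat.of B N) ys hN hys
  have h2 : HasProjectiveDimensionLE
      (ModuleCat.of B (N ⧸ (Ideal.ofList ys • ⊤ : Submodule B N))) rs.length :=
    hasProjectiveDimensionLE_of_isFiniteLength rs hreg hmax _ hfl
  rw [← projectiveDimension_le_iff] at h2
  have h3 : projectiveDimension (ModuleCat.of B N) + (ys.length : WithBot ℕ∞) ≤
      (0 : WithBot ℕ∞) + (ys.length : WithBot ℕ∞) := by
    rw [zero_add]
    calc projectiveDimension (ModuleCat.of B N) + (ys.length : WithBot ℕ∞)
        = projectiveDimension (ModuleCat.of B (N ⧸ (Ideal.ofList ys • ⊤ : Submodule B N))) := h1.symm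
      _ ≤ (rs.length : WithBot ℕ∞) := h2
      _ ≤ (ys.length : WithBot ℕ∞) := by exact_mod_cast hlen
  have h4 : projectiveDimension (ModuleCat.of B N) ≤ ((0 : ℕ) : WithBot ℕ∞) := by
    rw [Nat.cast_zero]
    exact (ENat.WithBot.add_le_add_natCast_right_iff).mp h3
  rw [projectiveDimension_le_iff] at h4
  have h5 : Projective (ModuleCat.of B N) :=
    (projective_iff_hasProjectiveDimensionLE_zero _).mpr h4
  have h6 : Module.Projective B N := by
    rw [← IsProjective.iff_projective] at h5
    exact h5
  exact Module.free_of_flat_of_isLocalRing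

end Fermat.Agent.S57

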