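import Mathlib
import Fermat.Agent.S57.Homological

set_option autoImplicit false

namespace Fermat.Agent.S57

open IsLocalRing RingTheory.Sequence
open scoped TensorProduct

universe u

/-- Quotient of a finite module by the maximal ideal is Artinian. -/
theorem isArtinian_quot_maximalIdeal_smul_top {A : Type*} [CommRing A] [IsLocalRing A]
    (P : Type*) [AddCommGroup P] [Module A P] [Module.Finite A P] :
    IsArtinian A (P ⧸ (maximalIdeal A • ⊤ : Submodule A P)) := by
  let _ : Field (A ⧸ maximalIdeal A) := Ideal.Quotient.field _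
  have h1 : Module.Finite (A ⧸ maximalIdeal A) (P ⧸ (maximalIdeal A • ⊤ : Submodule A P)) :=
    Module.Finite.of_restrictScalars_finite A _ _
  have h2 : IsArtinian (A ⧸ maximalIdeal A) (P ⧸ (maximalIdeal A • ⊤ : Submodule A P)) :=
    inferInstance
  exact isArtinian_of_surjective_algebraMap (R := A ⧸ maximalIdeal A)
    Ideal.Quotient.mk_surjective

/-- Transfer of the Artinian property along a surjective semilinear additive map which kills
`I • ⊤`. -/
theorem isArtinian_of_semilinear {A B P Q : Type*} [CommRing A] [Ring B]
    [AddCommGroup P] [Module A P] [AddCommGroup Q] [Module B Q]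
    (I : Ideal A) (f : P →+ Q) (hf : Function.Surjective f) (σ : A → B)
    (hσ : ∀ a p, f (a • p) = σ a • f p) (hI : ∀ a ∈ I, ∀ p, f (a • p) = 0)
    [IsArtinian A (P ⧸ (I • ⊤ : Submodule A P))] : IsArtinian B Q := by
  have hker : ∀ x ∈ (I • ⊤ : Submodule A P), f x = 0 := by
    intro x hx
    refine Submodule.smul_induction_on hx (fun a ha p _ => hI a ha p) ?_
    intro x y hx hy
    rw [map_add, hx, hy, add_zero]
  let cm : Submodule B Q → Submodule A P := fun U =>
    { carrier := f ⁻¹' U
      add_mem' := by
        intro x y hx hy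
        simp only [Set.mem_preimage, SetLike.mem_coe] at hx hy ⊢
        rw [map_add]
        exact U.add_mem hx hy
      zero_mem' := by
        simp only [Set.mem_preimage, SetLike.mem_coe, map_zero]
        exact U.zero_mem
      smul_mem' := by
        intro a x hx
        simp only [Set.mem_preimage, SetLike.mem_coe] at hx ⊢
        rw [hσ]
        exact U.smul_mem _ hx }
  let g : Submodule B Q → Submodule A (P ⧸ (I • ⊤ : Submodule A P)) := fun U =>
    Submodule.map (Submodule.mkQ _) (cm U)
  have hg : StrictMono g := by
    intro U V hUV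
    refine lt_of_le_of_ne ?_ ?_
    · apply Submodule.map_mono
      intro x hx
      exact hUV.le hx
    · intro hEq
      apply hUV.not_ge
      intro q hq
      obtain ⟨p, rfl⟩ := hf q
      have hp : Submodule.mkQ (I • ⊤ : Submodule A P) p ∈ g V :=
        Submodule.mem_map_of_mem (show p ∈ cm V from hq)
      rw [← hEq] at hp
      obtain ⟨p', hp', hpp'⟩ := hp
      have h0 : p' - p ∈ (I • ⊤ : Submodule A P) := by
        rw [← Submodule.Quotient.mk_eq_zero, Submodule.Quotient.mk_sub]
        exact sub_eq_zero.mpr hpp'
      have h1 := hker _ h0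
      rw [map_sub, sub_eq_zero] at h1
      rw [← h1]
      exact hp'
  exact hg.wellFoundedLT

/-- If `N` is an `A`-module which is "free of finite rank through a ring endomorphism `φ`"
and `φ` maps a regular system of generators of the maximal ideal of the Noetherian local ring
`A` into the maximal ideal, then `N` is free over `A`. -/
theorem free_of_semilinear_addEquiv
    {A : Type u} [CommRing A] [IsLocalRing A] [IsNoetherianRing A]
    (rs : List A) (hreg : IsRegular A rs) (hmax : Ideal.ofList rs = maximalIdeal A)
    (φ : A →+* A) (hφ : ∀ a ∈ rs, φ a ∈ maximalIdeal A)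
    (N : Type u) [AddCommGroup N] [Module A N] [Nontrivial N]
    (d : ℕ) (e : (Fin d → A) ≃+ N)
    (he : ∀ (a : A) (c : Fin d → A), e (a • c) = φ a • e c) :
    Module.Free A N := by
  -- finiteness
  have hfin : Module.Finite A N := by
    let g : (Fin d → A) →ₗ[A] N := Fintype.linearCombination A (fun i => e (Pi.single i 1))
    refine Module.Finite.of_surjective g ?_
    intro x
    obtain ⟨c, rfl⟩ := e.surjective x
    refine ⟨fun i => φ (c i), ?_⟩
    have hc : c = ∑ i, c i • (Pi.single i 1 : Fin d → A) := by
      ext j
      simp [Finset.sum_apply, Pi.single_apply]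
    conv_rhs => rw [hc]
    rw [map_sum]
    simp only [g, Fintype.linearCombination_apply, he]
  -- regular sequence on `N`
  have hw0 : IsWeaklyRegular (Fin d → A) rs := by
    have h1 : IsWeaklyRegular ((Fin d → A) ⊗[A] A) rs := hreg.1.isWeaklyRegular_lTensor
    exact ((TensorProduct.rid A (Fin d → A)).isWeaklyRegular_congr rs).mp h1
  have hN : IsWeaklyRegular N (rs.map φ) :=
    (AddEquiv.isWeaklyRegular_congr (e := e) <| List.forall₂_map_right_iff.mpr <|
      List.forall₂_same.mpr fun r _ x => he r x).mp hw0
  have hys : ∀ y ∈ rs.map φ, y ∈ maximalIdeal A := by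
    intro y hy
    obtain ⟨a, ha, rfl⟩ := List.mem_map.mp hy
    exact hφ a ha
  -- finite length of the quotient
  have hart : IsArtinian A (N ⧸ (Ideal.ofList (rs.map φ) • ⊤ : Submodule A N)) := by
    have : IsArtinian A ((Fin d → A) ⧸ (maximalIdeal A • ⊤ : Submodule A (Fin d → A))) :=
      isArtinian_quot_maximalIdeal_smul_top _
    refine isArtinian_of_semilinear (maximalIdeal A)
      ((Submodule.mkQ (Ideal.ofList (rs.map φ) • ⊤ : Submodule A N)).toAddMonoidHom.comp
        e.toAddMonoidHom) ?_ φ ?_ ?_
    · exact (Submodule.mkQ_surjective _).comp e.surjective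
    · intro a p
      simp [he]
    · intro a ha p
      simp only [AddMonoidHom.coe_comp, LinearMap.toAddMonoidHom_coe, Function.comp_apply,
        AddEquiv.coe_toAddMonoidHom, he, Submodule.mkQ_apply, Submodule.Quotient.mk_eq_zero]
      refine Submodule.smul_mem_smul ?_ Submodule.mem_top
      rw [← Ideal.map_ofList, hmax]
      exact Ideal.mem_map_of_mem φ ha
  have hfl : IsFiniteLength A (N ⧸ (Ideal.ofList (rs.map φ) • ⊤ : Submodule A N)) :=
    isFiniteLength_iff_isNoetherian_isArtinian.mpr ⟨inferInstance, hart⟩
  exact free_of_isWeaklyRegular_of_isFiniteLength rs hreg hmax N (rs.map φ) hys hN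
    (by simp) hfl

end Fermat.Agent.S57

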